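/-
S59lib / N2 / Alg  (helper9) — Project I, block N2b: the cotangent bound at a prime `q ≠ p` (pure algebra).

`𝒪` a DVR, `R` an `𝒪`-algebra with an augmentation `π : R →ₐ[𝒪] 𝒪`, `𝔭 = ker π`, `Φ_R = 𝔭/𝔭²`
(`(RingHom.ker (π : R →+* 𝒪)).Cotangent`, helper5's `NumCrit` vocabulary).
`X, g ∈ M₂(R)` with `X ≡ 0 mod 𝔭`, `det (1 + X) = 1`, `g (1 + X) = (1 + X)^q g` (the tame relation),
`π (det g) = q` a unit of `𝒪`, `a = π (tr g)`.  Then the image in `Φ_R` of the ideal `𝔫` generated by the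
entries of `X` has `𝒪`-length at most `length 𝒪/((q - 1)(a² - (q + 1)²))`.

Proof: modulo `𝔭²` one has `tr X ≡ 0` and `g₀ X ≡ q X g₀` (`g₀ = π g`), hence
`g₀ X adj(g₀) ≡ q² X`: three linear relations between the classes of `X₀₀, X₀₁, X₁₀` whose matrix has
determinant `q³ (1 - q) ((q + 1)² - a²)`; `NumCrit.length_quotient_of_rows` (helper5) computes the colength of
the row space.
-/
import Mathlib
import Fermat.Agent.S59lib.NumCrit.Len

set_option autoImplicit false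
set_option linter.unusedSectionVars false

noncomputable section

namespace Fermat.Agent.S59lib.N2

open Ideal Module Matrix

/-! ### entrywise congruences of `2 × 2` matrices -/

section Ent

variable {R : Type*} [CommRing R]

/-- all entries of `Y` lie in the ideal `I` -/
def EntIn (I : Ideal R) (Y : Matrix (Fin 2) (Fin 2) R) : Prop := ∀ i j, Y i j ∈ I

theorem EntIn.mono {I J : Ideal R} (h : I ≤ J) {Y : Matrix (Fin 2) (Fin 2) R} (hY : EntIn I Y) :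
    EntIn J Y := fun i j => h (hY i j)

theorem EntIn.add {I : Ideal R} {Y Z : Matrix (Fin 2) (Fin 2) R} (hY : EntIn I Y) (hZ : EntIn I Z) :
    EntIn I (Y + Z) := fun i j => by
  rw [Matrix.add_apply]
  exact I.add_mem (hY i j) (hZ i j)

theorem EntIn.sub {I : Ideal R} {Y Z : Matrix (Fin 2) (Fin 2) R} (hY : EntIn I Y) (hZ : EntIn I Z) :
    EntIn I (Y - Z) := fun i j => by
  rw [Matrix.sub_apply]
  exact I.sub_mem (hY i j) (hZ i j)

theorem EntIn.zero (I : Ideal R) : EntIn I (0 : Matrix (Fin 2) (Fin 2) R) := fun i j => by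
  rw [Matrix.zero_apply]
  exact I.zero_mem

theorem EntIn.smul {I : Ideal R} {Y : Matrix (Fin 2) (Fin 2) R} (hY : EntIn I Y) (c : R) :
    EntIn I (c • Y) := fun i j => by
  rw [Matrix.smul_apply, smul_eq_mul]
  exact I.mul_mem_left _ (hY i j)

theorem EntIn.mul {I J : Ideal R} {Y Z : Matrix (Fin 2) (Fin 2) R} (hY : EntIn I Y) (hZ : EntIn J Z) :
    EntIn (I * J) (Y * Z) := fun i j => by
  rw [Matrix.mul_apply]
  exact Ideal.sum_mem _ fun l _ => Ideal.mul_mem_mul (hY i l) (hZ l j)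

theorem EntIn.mul_right {I : Ideal R} {Y : Matrix (Fin 2) (Fin 2) R} (hY : EntIn I Y)
    (Z : Matrix (Fin 2) (Fin 2) R) : EntIn I (Y * Z) := fun i j => by
  rw [Matrix.mul_apply]
  exact Ideal.sum_mem _ fun l _ => I.mul_mem_right _ (hY i l)

theorem EntIn.mul_left {I : Ideal R} {Y : Matrix (Fin 2) (Fin 2) R} (hY : EntIn I Y)
    (Z : Matrix (Fin 2) (Fin 2) R) : EntIn I (Z * Y) := fun i j => by
  rw [Matrix.mul_apply]
  exact Ideal.sum_mem _ fun l _ => I.mul_mem_left _ (hY l j)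

/-- `u ≡ 1 mod I` ⟹ `uⁿ ≡ 1 + n (u - 1) mod I²` -/
theorem EntIn.pow_sub_lin {I : Ideal R} {u : Matrix (Fin 2) (Fin 2) R} (hu : EntIn I (u - 1)) (n : ℕ) :
    EntIn (I ^ 2) (u ^ n - 1 - (n : R) • (u - 1)) := by
  induction n with
  | zero =>
    rw [pow_zero, sub_self, Nat.cast_zero, zero_smul, sub_zero]
    exact EntIn.zero _
  | succ n ih =>
    have e : u ^ (n + 1) - 1 - ((n + 1 : ℕ) : R) • (u - 1) =
        (u ^ n - 1 - (n : R) • (u - 1)) * u + (n : R) • ((u - 1) * (u - 1)) := by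
      have h : (u - 1) * u = (u - 1) * (u - 1) + (u - 1) := by noncomm_ring
      rw [pow_succ, Nat.cast_succ, add_smul, one_smul, sub_mul, sub_mul, one_mul, smul_mul_assoc, h,
        smul_add]
      abel
    rw [e]
    refine (ih.mul_right u).add (EntIn.smul ?_ _)
    have := hu.mul hu
    rwa [← pow_two] at this

/-- the tame relation modulo `P²`: `g (1 + X) = (1 + X)^q g`, `X ≡ 0 mod P` ⟹ `g X ≡ q X g mod P²` -/
theorem EntIn.tame_rel {P : Ideal R} {X g : Matrix (Fin 2) (Fin 2) R} (hX : EntIn P X) {q : ℕ}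
    (hrel : g * (1 + X) = (1 + X) ^ q * g) : EntIn (P ^ 2) (g * X - (q : R) • (X * g)) := by
  have hu : EntIn P ((1 + X) - 1) := by rwa [add_sub_cancel_left]
  have h1 := (hu.pow_sub_lin q).mul_right g
  have e : g * X - (q : R) • (X * g) = ((1 + X) ^ q - 1 - (q : R) • ((1 + X) - 1)) * g := by
    rw [add_sub_cancel_left, sub_mul, sub_mul, ← hrel, mul_add, mul_one, one_mul, smul_mul_assoc]
    abel
  rw [e]
  exact h1

/-- replacing `g` by a matrix `g' ≡ g mod P` in the tame relation modulo `P²` -/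
theorem EntIn.tame_rel_congr {P : Ideal R} {X g g' : Matrix (Fin 2) (Fin 2) R} (hX : EntIn P X)
    (hg : EntIn P (g - g')) {c : R} (h : EntIn (P ^ 2) (g * X - c • (X * g))) :
    EntIn (P ^ 2) (g' * X - c • (X * g')) := by
  have e : g' * X - c • (X * g') = (g * X - c • (X * g)) - (g - g') * X + c • (X * (g - g')) := by
    rw [sub_mul, mul_sub, smul_sub]
    abel
  rw [e]
  refine (h.sub ?_).add (EntIn.smul ?_ c)
  · have := hg.mul hX
    rwa [← pow_two] at this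
  · have := hX.mul hg
    rwa [← pow_two] at this

/-- `det (1 + X) = 1`, `X ≡ 0 mod P` ⟹ `tr X ≡ 0 mod P²` -/
theorem EntIn.trace_mem {P : Ideal R} {X : Matrix (Fin 2) (Fin 2) R} (hX : EntIn P X)
    (hdet : (1 + X).det = 1) : X 0 0 + X 1 1 ∈ P ^ 2 := by
  rw [Matrix.det_fin_two] at hdet
  simp only [Matrix.add_apply, Matrix.one_apply_eq, Matrix.one_apply_ne, ne_eq, Fin.reduceEq,
    not_false_eq_true, zero_add] at hdet
  have e : X 0 0 + X 1 1 = X 0 1 * X 1 0 - X 0 0 * X 1 1 := by linear_combination hdet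
  rw [e, pow_two]
  exact Ideal.sub_mem _ (Ideal.mul_mem_mul (hX 0 1) (hX 1 0)) (Ideal.mul_mem_mul (hX 0 0) (hX 1 1))

/-- the three linear relations modulo `P²` between `X₀₀, X₀₁, X₁₀` (the rows of `Ad g - q` on the trace zero
matrices, multiplied by `det g`) -/
theorem EntIn.rows {J : Ideal R} {X g : Matrix (Fin 2) (Fin 2) R} {c : R}
    (h : EntIn J (g * X - c • (X * g))) (ht : X 0 0 + X 1 1 ∈ J) :
    (g 0 0 * g 1 1 + g 0 1 * g 1 0 - c * (g 0 0 * g 1 1 - g 0 1 * g 1 0)) * X 0 0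
        + (-(g 0 0 * g 1 0)) * X 0 1 + (g 0 1 * g 1 1) * X 1 0 ∈ J ∧
    (-(2 * (g 0 0 * g 0 1))) * X 0 0 + (g 0 0 ^ 2 - c * (g 0 0 * g 1 1 - g 0 1 * g 1 0)) * X 0 1
        + (-(g 0 1 ^ 2)) * X 1 0 ∈ J ∧
    (2 * (g 1 0 * g 1 1)) * X 0 0 + (-(g 1 0 ^ 2)) * X 0 1
        + (g 1 1 ^ 2 - c * (g 0 0 * g 1 1 - g 0 1 * g 1 0)) * X 1 0 ∈ J := by
  have h00 := h 0 0
  have h01 := h 0 1
  have h10 := h 1 0
  have h11 := h 1 1
  simp only [Matrix.sub_apply, Matrix.smul_apply, Matrix.mul_apply, Fin.sum_univ_two, smul_eq_mul]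
    at h00 h01 h10 h11
  refine ⟨?_, ?_, ?_⟩
  · have e : (g 0 0 * g 1 1 + g 0 1 * g 1 0 - c * (g 0 0 * g 1 1 - g 0 1 * g 1 0)) * X 0 0
        + (-(g 0 0 * g 1 0)) * X 0 1 + (g 0 1 * g 1 1) * X 1 0 =
        g 1 1 * (g 0 0 * X 0 0 + g 0 1 * X 1 0 - c * (X 0 0 * g 0 0 + X 0 1 * g 1 0))
        - g 1 0 * (g 0 0 * X 0 1 + g 0 1 * X 1 1 - c * (X 0 0 * g 0 1 + X 0 1 * g 1 1))
        + g 0 1 * g 1 0 * (X 0 0 + X 1 1) := by ring
    rw [e]
    exact J.add_mem (J.sub_mem (J.mul_mem_left _ h00) (J.mul_mem_left _ h01)) (J.mul_mem_left _ ht)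
  · have e : (-(2 * (g 0 0 * g 0 1))) * X 0 0 + (g 0 0 ^ 2 - c * (g 0 0 * g 1 1 - g 0 1 * g 1 0)) * X 0 1
        + (-(g 0 1 ^ 2)) * X 1 0 =
        g 0 0 * (g 0 0 * X 0 1 + g 0 1 * X 1 1 - c * (X 0 0 * g 0 1 + X 0 1 * g 1 1))
        - g 0 1 * (g 0 0 * X 0 0 + g 0 1 * X 1 0 - c * (X 0 0 * g 0 0 + X 0 1 * g 1 0))
        - g 0 0 * g 0 1 * (X 0 0 + X 1 1) := by ring
    rw [e]
    exact J.sub_mem (J.sub_mem (J.mul_mem_left _ h01) (J.mul_mem_left _ h00)) (J.mul_mem_left _ ht)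
  · have e : (2 * (g 1 0 * g 1 1)) * X 0 0 + (-(g 1 0 ^ 2)) * X 0 1
        + (g 1 1 ^ 2 - c * (g 0 0 * g 1 1 - g 0 1 * g 1 0)) * X 1 0 =
        g 1 1 * (g 1 0 * X 0 0 + g 1 1 * X 1 0 - c * (X 1 0 * g 0 0 + X 1 1 * g 1 0))
        - g 1 0 * (g 1 0 * X 0 1 + g 1 1 * X 1 1 - c * (X 1 0 * g 0 1 + X 1 1 * g 1 1))
        + g 1 0 * g 1 1 * (X 0 0 + X 1 1) := by ring
    rw [e]
    exact J.add_mem (J.sub_mem (J.mul_mem_left _ h10) (J.mul_mem_left _ h11)) (J.mul_mem_left _ ht)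

end Ent

/-! ### the image of an ideal in the cotangent space of an augmentation -/

section Cot

variable {𝒪 : Type*} [CommRing 𝒪] {R : Type*} [CommRing R] [Algebra 𝒪 R] (π : R →ₐ[𝒪] 𝒪)

/-- `R` acts on the cotangent space of `ker π` through `π` -/
theorem smul_cotangent (r : R) (m : (RingHom.ker (π : R →+* 𝒪)).Cotangent) : r • m = π r • m := by
  have h : r - algebraMap 𝒪 R (π r) ∈ RingHom.ker (π : R →+* 𝒪) := by
    rw [RingHom.mem_ker, map_sub]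
    show π r - π (algebraMap 𝒪 R (π r)) = 0
    rw [AlgHom.commutes, Algebra.algebraMap_self_apply, sub_self]
  have h2 := Ideal.Cotangent.smul_eq_zero_of_mem h m
  rw [sub_smul, sub_eq_zero, algebraMap_smul] at h2
  exact h2

/-- the image `(𝔫 ∩ 𝔭 + 𝔭²)/𝔭²` of the ideal `𝔫` in the cotangent space `𝔭/𝔭²`, `𝔭 = ker π` -/
def cotImage (𝔫 : Ideal R) : Submodule 𝒪 (RingHom.ker (π : R →+* 𝒪)).Cotangent where
  carrier := {z | ∃ x : RingHom.ker (π : R →+* 𝒪), (x : R) ∈ 𝔫 ∧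
    (RingHom.ker (π : R →+* 𝒪)).toCotangent x = z}
  add_mem' := by
    rintro _ _ ⟨x, hx, rfl⟩ ⟨y, hy, rfl⟩
    exact ⟨x + y, 𝔫.add_mem hx hy, map_add _ _ _⟩
  zero_mem' := ⟨0, 𝔫.zero_mem, map_zero _⟩
  smul_mem' := by
    rintro c _ ⟨x, hx, rfl⟩
    refine ⟨algebraMap 𝒪 R c • x, ?_, ?_⟩
    · exact 𝔫.mul_mem_left _ hx
    · rw [map_smul, algebraMap_smul]

theorem mem_cotImage {𝔫 : Ideal R} {z : (RingHom.ker (π : R →+* 𝒪)).Cotangent} :
    z ∈ cotImage π 𝔫 ↔ ∃ x : RingHom.ker (π : R →+* 𝒪), (x : R) ∈ 𝔫 ∧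
      (RingHom.ker (π : R →+* 𝒪)).toCotangent x = z := Iff.rfl

theorem cotImage_mono {𝔫 𝔫' : Ideal R} (h : 𝔫 ≤ 𝔫') : cotImage π 𝔫 ≤ cotImage π 𝔫' := by
  rintro _ ⟨x, hx, rfl⟩
  exact ⟨x, h hx, rfl⟩

/-- the image of an ideal generated by elements of `𝔭` is the `𝒪`-span of their classes -/
theorem cotImage_span_le {S : Set R} (hS : ∀ s ∈ S, π s = 0)
    (N : Submodule 𝒪 (RingHom.ker (π : R →+* 𝒪)).Cotangent)
    (hN : ∀ s (hs : s ∈ S), (RingHom.ker (π : R →+* 𝒪)).toCotangent ⟨s, hS s hs⟩ ∈ N) :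
    cotImage π (Ideal.span S) ≤ N := by
  have key : ∀ x ∈ Ideal.span S, ∃ hx : x ∈ RingHom.ker (π : R →+* 𝒪),
      (RingHom.ker (π : R →+* 𝒪)).toCotangent ⟨x, hx⟩ ∈ N := by
    intro x hx
    refine Submodule.span_induction (p := fun x _ => ∃ hx : x ∈ RingHom.ker (π : R →+* 𝒪),
      (RingHom.ker (π : R →+* 𝒪)).toCotangent ⟨x, hx⟩ ∈ N) ?_ ?_ ?_ ?_ hx
    · intro s hs
      exact ⟨hS s hs, hN s hs⟩
    · exact ⟨Ideal.zero_mem _, by
        have : (⟨0, Ideal.zero_mem _⟩ : RingHom.ker (π : R →+* 𝒪)) = 0 := rfl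
        rw [this, map_zero]
        exact N.zero_mem⟩
    · rintro x y _ _ ⟨hx, hxN⟩ ⟨hy, hyN⟩
      refine ⟨Ideal.add_mem _ hx hy, ?_⟩
      have : (⟨x + y, Ideal.add_mem _ hx hy⟩ : RingHom.ker (π : R →+* 𝒪)) = ⟨x, hx⟩ + ⟨y, hy⟩ := rfl
      rw [this, map_add]
      exact N.add_mem hxN hyN
    · rintro r x _ ⟨hx, hxN⟩
      refine ⟨Ideal.mul_mem_left _ r hx, ?_⟩
      have : (⟨r • x, Ideal.mul_mem_left _ r hx⟩ : RingHom.ker (π : R →+* 𝒪)) = r • ⟨x, hx⟩ := rfl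
      rw [this, map_smul, smul_cotangent]
      exact N.smul_mem _ hxN
  rintro _ ⟨x, hx, rfl⟩
  obtain ⟨hx', h⟩ := key x hx
  exact h

/-- **The cotangent sequence.**  For a surjection `ψ : R → R''` of augmented `𝒪`-algebras whose kernel lies in
`𝔫`:  `length Φ_R ≤ length (image of 𝔫 in Φ_R) + length Φ_{R''}`. -/
theorem length_cotangent_le_add {R'' : Type*} [CommRing R''] [Algebra 𝒪 R''] (π'' : R'' →ₐ[𝒪] 𝒪)
    (ψ : R →ₐ[𝒪] R'') (hψ : Function.Surjective ψ) (hπ : π''.comp ψ = π) (𝔫 : Ideal R)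
    (hker : RingHom.ker (ψ : R →+* R'') ≤ 𝔫) :
    Module.length 𝒪 (RingHom.ker (π : R →+* 𝒪)).Cotangent ≤
      Module.length 𝒪 (cotImage π 𝔫) +
        Module.length 𝒪 (RingHom.ker (π'' : R'' →+* 𝒪)).Cotangent := by
  have hπ' : ∀ x, π'' (ψ x) = π x := fun x => by rw [← hπ]; rfl
  have hcomap : RingHom.ker (π : R →+* 𝒪) ≤ (RingHom.ker (π'' : R'' →+* 𝒪)).comap ψ := by
    intro x hx
    rw [Ideal.mem_comap, RingHom.mem_ker]
    rw [RingHom.mem_ker] at hx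
    exact (hπ' x).trans hx
  set f := Ideal.mapCotangent (RingHom.ker (π : R →+* 𝒪)) (RingHom.ker (π'' : R'' →+* 𝒪)) ψ hcomap
    with hf
  have hfs : Function.Surjective f := by
    intro z
    obtain ⟨⟨y, hy⟩, rfl⟩ := Ideal.toCotangent_surjective _ z
    obtain ⟨x, rfl⟩ := hψ y
    have hx : x ∈ RingHom.ker (π : R →+* 𝒪) := by
      rw [RingHom.mem_ker] at hy ⊢
      exact (hπ' x).symm.trans hy
    exact ⟨(RingHom.ker (π : R →+* 𝒪)).toCotangent ⟨x, hx⟩, rfl⟩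
  have hkerf : LinearMap.ker f ≤ cotImage π 𝔫 := by
    intro z hz
    obtain ⟨⟨x, hx⟩, rfl⟩ := Ideal.toCotangent_surjective _ z
    rw [LinearMap.mem_ker, hf, Ideal.mapCotangent_toCotangent, Ideal.toCotangent_eq_zero] at hz
    have hle : RingHom.ker (π'' : R'' →+* 𝒪) ^ 2 ≤
        Ideal.map (ψ : R →+* R'') (RingHom.ker (π : R →+* 𝒪) ^ 2) := by
      rw [Ideal.map_pow]
      refine Ideal.pow_right_mono ?_ 2
      intro y hy
      obtain ⟨x, rfl⟩ := hψ y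
      refine Ideal.mem_map_of_mem _ ?_
      rw [RingHom.mem_ker] at hy ⊢
      exact (hπ' x).symm.trans hy
    obtain ⟨w, hw, hwx⟩ := (Ideal.mem_map_iff_of_surjective (ψ : R →+* R'') hψ).mp (hle hz)
    have hw1 : w ∈ RingHom.ker (π : R →+* 𝒪) := Ideal.pow_le_self two_ne_zero hw
    refine ⟨⟨x - w, Ideal.sub_mem _ hx hw1⟩, hker ?_, ?_⟩
    · rw [RingHom.mem_ker, map_sub, sub_eq_zero]
      exact hwx.symm
    · rw [Ideal.toCotangent_eq]
      show x - w - x ∈ _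
      rw [sub_sub_cancel_left]
      exact Ideal.neg_mem_iff _ |>.mpr hw
  rw [Module.length_eq_add_of_exact (LinearMap.ker f).subtype f (Submodule.subtype_injective _) hfs
    (LinearMap.exact_subtype_ker_map f)]
  exact add_le_add_left
    (Module.length_le_of_injective (Submodule.inclusion hkerf) (Submodule.inclusion_injective hkerf)) _

end Cot

/-! ### the bound -/

section Bound

variable {𝒪 : Type*} [CommRing 𝒪] [IsDomain 𝒪] [IsDiscreteValuationRing 𝒪]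
variable {R : Type*} [CommRing R] [Algebra 𝒪 R] (π : R →ₐ[𝒪] 𝒪)

/-- the matrix of `det g₀ · (Ad g₀ - q)` on the trace zero matrices (`g₀ = !![α, β; γ, δ]`, `q = det g₀`) -/
def adMat (α β γ δ : 𝒪) : Matrix (Fin 3) (Fin 3) 𝒪 :=
  !![α * δ + β * γ - (α * δ - β * γ) * (α * δ - β * γ), -(α * γ), β * δ;
     -(2 * (α * β)), α ^ 2 - (α * δ - β * γ) * (α * δ - β * γ), -(β ^ 2);
     2 * (γ * δ), -(γ ^ 2), δ ^ 2 - (α * δ - β * γ) * (α * δ - β * γ)]

theorem det_adMat (α β γ δ : 𝒪) :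
    (adMat α β γ δ).det = (α * δ - β * γ) ^ 3 *
      (((α * δ - β * γ) - 1) * ((α + δ) ^ 2 - ((α * δ - β * γ) + 1) ^ 2)) := by
  rw [adMat, Matrix.det_fin_three]
  simp only [Matrix.of_apply, Matrix.cons_val', Matrix.cons_val_zero, Matrix.cons_val_one,
    Matrix.cons_val_two, Matrix.cons_val_fin_one, Matrix.empty_val', Matrix.head_cons,
    Matrix.tail_cons, Matrix.head_fin_const]
  ring

theorem adMat_row0 (α β γ δ : 𝒪) :
    adMat α β γ δ 0 0 = α * δ + β * γ - (α * δ - β * γ) * (α * δ - β * γ) ∧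
    adMat α β γ δ 0 1 = -(α * γ) ∧ adMat α β γ δ 0 2 = β * δ := ⟨rfl, rfl, rfl⟩

theorem adMat_row1 (α β γ δ : 𝒪) :
    adMat α β γ δ 1 0 = -(2 * (α * β)) ∧
    adMat α β γ δ 1 1 = α ^ 2 - (α * δ - β * γ) * (α * δ - β * γ) ∧
    adMat α β γ δ 1 2 = -(β ^ 2) := ⟨rfl, rfl, rfl⟩

theorem adMat_row2 (α β γ δ : 𝒪) :
    adMat α β γ δ 2 0 = 2 * (γ * δ) ∧ adMat α β γ δ 2 1 = -(γ ^ 2) ∧
    adMat α β γ δ 2 2 = δ ^ 2 - (α * δ - β * γ) * (α * δ - β * γ) := ⟨rfl, rfl, rfl⟩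

/-- a linear relation modulo `𝔭²` gives a linear relation in the cotangent space -/
theorem cot_rel {a b c : 𝒪} {x y z : R} (hx : x ∈ RingHom.ker (π : R →+* 𝒪))
    (hy : y ∈ RingHom.ker (π : R →+* 𝒪)) (hz : z ∈ RingHom.ker (π : R →+* 𝒪))
    (h : algebraMap 𝒪 R a * x + algebraMap 𝒪 R b * y + algebraMap 𝒪 R c * z ∈
      RingHom.ker (π : R →+* 𝒪) ^ 2) :
    a • (RingHom.ker (π : R →+* 𝒪)).toCotangent ⟨x, hx⟩ +
      b • (RingHom.ker (π : R →+* 𝒪)).toCotangent ⟨y, hy⟩ +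
      c • (RingHom.ker (π : R →+* 𝒪)).toCotangent ⟨z, hz⟩ = 0 := by
  rw [← algebraMap_smul R a, ← algebraMap_smul R b, ← algebraMap_smul R c, ← map_smul, ← map_smul,
    ← map_smul, ← map_add, ← map_add, Ideal.toCotangent_eq_zero]
  exact h

/-- **N2b, core.**  The image in the cotangent space of the ideal generated by the entries of `X` has length at
most `length 𝒪/((q - 1)(a² - (q + 1)²))`, `a = π (tr g)`. -/
theorem length_cotImage_le (X g : Matrix (Fin 2) (Fin 2) R) (q : ℕ)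
    (hX : ∀ i j, π (X i j) = 0) (hdet : (1 + X).det = 1) (hrel : g * (1 + X) = (1 + X) ^ q * g)
    (hg : π g.det = (q : 𝒪)) (hq : IsUnit (q : 𝒪))
    (hc : ((q : 𝒪) - 1) * (π g.trace ^ 2 - ((q : 𝒪) + 1) ^ 2) ≠ 0) :
    Module.length 𝒪 (cotImage π (Ideal.span {x | ∃ i j, x = X i j})) ≤
      Module.length 𝒪 (𝒪 ⧸ Ideal.span {((q : 𝒪) - 1) * (π g.trace ^ 2 - ((q : 𝒪) + 1) ^ 2)}) := by
  classical
  have hXP : EntIn (RingHom.ker (π : R →+* 𝒪)) X := fun i j => (RingHom.mem_ker).mpr (hX i j)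
  set g' : Matrix (Fin 2) (Fin 2) R := Matrix.of fun i j => algebraMap 𝒪 R (π (g i j)) with hg'
  have hgg' : EntIn (RingHom.ker (π : R →+* 𝒪)) (g - g') := by
    intro i j
    rw [RingHom.mem_ker, Matrix.sub_apply, map_sub]
    show π (g i j) - π (algebraMap 𝒪 R (π (g i j))) = 0
    rw [AlgHom.commutes, Algebra.algebraMap_self_apply, sub_self]
  have h2 := hXP.tame_rel_congr hgg' (hXP.tame_rel hrel)
  have ht := hXP.trace_mem hdet
  obtain ⟨r0, r1, r2⟩ := EntIn.rows h2 ht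
  set α := π (g 0 0) with hα
  set β := π (g 0 1) with hβ
  set γ := π (g 1 0) with hγ
  set δ := π (g 1 1) with hδ
  have hqdet : α * δ - β * γ = (q : 𝒪) := by
    rw [← hg, Matrix.det_fin_two, map_sub, map_mul, map_mul]
  have hqR : (q : R) = algebraMap 𝒪 R (α * δ - β * γ) := by rw [hqdet, map_natCast]
  have e00 : g' 0 0 = algebraMap 𝒪 R α := rfl
  have e01 : g' 0 1 = algebraMap 𝒪 R β := rfl
  have e10 : g' 1 0 = algebraMap 𝒪 R γ := rfl
  have e11 : g' 1 1 = algebraMap 𝒪 R δ := rfl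
  rw [e00, e01, e10, e11, hqR] at r0 r1 r2
  -- the three classes
  set t0 := (RingHom.ker (π : R →+* 𝒪)).toCotangent ⟨X 0 0, hXP 0 0⟩ with ht0
  set t1 := (RingHom.ker (π : R →+* 𝒪)).toCotangent ⟨X 0 1, hXP 0 1⟩ with ht1
  set t2 := (RingHom.ker (π : R →+* 𝒪)).toCotangent ⟨X 1 0, hXP 1 0⟩ with ht2
  set A₀ := adMat α β γ δ with hA₀
  have R0 : A₀ 0 0 • t0 + A₀ 0 1 • t1 + A₀ 0 2 • t2 = 0 := by
    refine cot_rel π (hXP 0 0) (hXP 0 1) (hXP 1 0) ?_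
    obtain ⟨a0, a1, a2⟩ := adMat_row0 α β γ δ
    rw [hA₀, a0, a1, a2]
    simpa only [map_sub, map_add, map_mul, map_neg] using r0
  have R1 : A₀ 1 0 • t0 + A₀ 1 1 • t1 + A₀ 1 2 • t2 = 0 := by
    refine cot_rel π (hXP 0 0) (hXP 0 1) (hXP 1 0) ?_
    obtain ⟨a0, a1, a2⟩ := adMat_row1 α β γ δ
    rw [hA₀, a0, a1, a2]
    simpa only [map_sub, map_add, map_mul, map_neg, map_pow, map_ofNat] using r1
  have R2 : A₀ 2 0 • t0 + A₀ 2 1 • t1 + A₀ 2 2 • t2 = 0 := by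
    refine cot_rel π (hXP 0 0) (hXP 0 1) (hXP 1 0) ?_
    obtain ⟨a0, a1, a2⟩ := adMat_row2 α β γ δ
    rw [hA₀, a0, a1, a2]
    simpa only [map_sub, map_add, map_mul, map_neg, map_pow, map_ofNat] using r2
  -- the linear map `𝒪³ → Φ`
  set e : (Fin 3 → 𝒪) →ₗ[𝒪] (RingHom.ker (π : R →+* 𝒪)).Cotangent :=
    Fintype.linearCombination 𝒪 ![t0, t1, t2] with he
  have he_apply : ∀ c : Fin 3 → 𝒪, e c = c 0 • t0 + c 1 • t1 + c 2 • t2 := by
    intro c
    rw [he, Fintype.linearCombination_apply, Fin.sum_univ_three]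
    rfl
  -- the image lies in the range of `e`
  have hle : cotImage π (Ideal.span {x | ∃ i j, x = X i j}) ≤ LinearMap.range e := by
    refine cotImage_span_le π (fun s hs => ?_) _ ?_
    · obtain ⟨i, j, rfl⟩ := hs
      exact hX i j
    · rintro s ⟨i, j, rfl⟩
      have h11 : (RingHom.ker (π : R →+* 𝒪)).toCotangent ⟨X 1 1, hXP 1 1⟩ = -t0 := by
        rw [eq_neg_iff_add_eq_zero, add_comm, ht0, ← map_add, Ideal.toCotangent_eq_zero]
        exact ht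
      fin_cases i <;> fin_cases j
      · exact ⟨![1, 0, 0], by rw [he_apply]; simp; rfl⟩
      · exact ⟨![0, 1, 0], by rw [he_apply]; simp; rfl⟩
      · exact ⟨![0, 0, 1], by rw [he_apply]; simp; rfl⟩
      · exact ⟨![-1, 0, 0], by rw [he_apply]; simp [h11]⟩
  -- the row space lies in the kernel of `e`
  set L : Submodule 𝒪 (Fin 3 → 𝒪) := LinearMap.range A₀.vecMulLinear with hL
  have hLker : L ≤ LinearMap.ker e := by
    rintro _ ⟨b, rfl⟩
    rw [LinearMap.mem_ker, he_apply, Matrix.vecMulLinear_apply]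
    simp only [Matrix.vecMul, dotProduct, Fin.sum_univ_three]
    have : (b 0 * A₀ 0 0 + b 1 * A₀ 1 0 + b 2 * A₀ 2 0) • t0 +
        (b 0 * A₀ 0 1 + b 1 * A₀ 1 1 + b 2 * A₀ 2 1) • t1 +
        (b 0 * A₀ 0 2 + b 1 * A₀ 1 2 + b 2 * A₀ 2 2) • t2 =
        b 0 • (A₀ 0 0 • t0 + A₀ 0 1 • t1 + A₀ 0 2 • t2) +
        b 1 • (A₀ 1 0 • t0 + A₀ 1 1 • t1 + A₀ 1 2 • t2) +
        b 2 • (A₀ 2 0 • t0 + A₀ 2 1 • t1 + A₀ 2 2 • t2) := by
      simp only [add_smul, mul_smul, smul_add]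
      abel
    rw [this, R0, R1, R2, smul_zero, smul_zero, smul_zero, add_zero, add_zero]
  -- determinant
  have hdetA : A₀.det = (q : 𝒪) ^ 3 * (((q : 𝒪) - 1) * (π g.trace ^ 2 - ((q : 𝒪) + 1) ^ 2)) := by
    rw [hA₀, det_adMat, hqdet, Matrix.trace_fin_two, map_add]
  have hdetA0 : A₀.det ≠ 0 := by
    rw [hdetA]
    exact mul_ne_zero (pow_ne_zero _ hq.ne_zero) hc
  obtain ⟨hlen, -⟩ := NumCrit.length_quotient_of_rows A₀ hdetA0 L (fun c => by
    rw [hL, LinearMap.mem_range]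
    constructor
    · rintro ⟨b, rfl⟩
      exact ⟨b, rfl⟩
    · rintro ⟨b, rfl⟩
      exact ⟨b, rfl⟩)
  have hspan : (Ideal.span {A₀.det} : Ideal 𝒪) =
      Ideal.span {((q : 𝒪) - 1) * (π g.trace ^ 2 - ((q : 𝒪) + 1) ^ 2)} := by
    rw [hdetA]
    exact Ideal.span_singleton_mul_left_unit (hq.pow 3) _
  calc Module.length 𝒪 (cotImage π (Ideal.span {x | ∃ i j, x = X i j}))
      ≤ Module.length 𝒪 (LinearMap.range e) :=
        Module.length_le_of_injective (Submodule.inclusion hle) (Submodule.inclusion_injective hle)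
    _ = Module.length 𝒪 ((Fin 3 → 𝒪) ⧸ LinearMap.ker e) := (e.quotKerEquivRange.length_eq).symm
    _ ≤ Module.length 𝒪 ((Fin 3 → 𝒪) ⧸ L) := NumCrit.length_quotient_anti hLker
    _ = Module.length 𝒪 (𝒪 ⧸ Ideal.span {A₀.det}) := hlen
    _ = _ := by rw [hspan]

end Bound

end Fermat.Agent.S59lib.N2
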