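/-
S59lib / N2 / Main  (helper9) — Project I, block N2: the cotangent space grows by at most `length 𝒪/(c_q)` when
ramification at a prime `q ≠ p` (where `ρ̄` is unramified) is allowed.

`R` a separated local `𝒪`-algebra with an augmentation `π : R →ₐ[𝒪] 𝒪`, `ρ : GaloisRepAdic R` with cyclotomic
determinant, residually unramified at `v ≠ p`, `π ∘ ρ` trivial on the tame generator `Σ_v = globGenAt v p`
(helper4's `S43lib/B3/TameGlobal`), `Φ_v = globFrobAt v`.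

* `tameIdeal ρ b v p` : the ideal `𝔫` generated by the entries of `ρ(Σ_v) - 1`.  By helper4's
  `unram_of_globGen_eq_one`, `ρ ⊗ R/𝔫` is unramified at `v` (`isUnramifiedAt_of_tameIdeal_le`), and conversely
  `𝔫 ≤ ker ψ` as soon as `ρ ⊗_ψ R''` is unramified at `v` (`tameIdeal_le_of_isUnramifiedAt`).
* `length_cotImage_tameIdeal_le` : `length_𝒪 (𝔫 + 𝔭²)/𝔭² ≤ length 𝒪/((v - 1)(a² - (v + 1)²))`,
  `a = π (tr ρ(Φ_v))`.
* `length_cotangent_le_of_tame` : for a surjection `ψ : R → R''` of augmented `𝒪`-algebras with `ker ψ ≤ 𝔫`: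
  `length Φ_R ≤ length Φ_{R''} + length 𝒪/((v - 1)(a² - (v + 1)²))`.
-/
import Mathlib
import Fermat.Agent.S59lib.N2.Alg
import Fermat.Agent.S43lib.B3.UnramOfGen

set_option autoImplicit false
set_option linter.unusedSectionVars false
set_option linter.style.haveILetI false

noncomputable section

namespace Fermat.Agent.S59lib.N2

open IsLocalRing Fermat.Agent.TeamA.Rep Fermat.Agent.S43lib.B3

local notation "Qb" => AlgebraicClosure ℚ

variable {𝒪 : Type} [CommRing 𝒪] [IsDomain 𝒪] [IsDiscreteValuationRing 𝒪]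
variable {R : Type} [CommRing R] [IsLocalRing R] [Algebra 𝒪 R] (π : R →ₐ[𝒪] 𝒪)
variable (p : ℕ) [hp : Fact p.Prime]

/-- the ideal generated by the entries of `ρ(Σ_v) - 1`, `Σ_v` the tame generator at `v` -/
def tameIdeal (ρ : GaloisRepAdic R) (b : Module.Basis (Fin 2) R ρ.V) (v : Nat.Primes) (p : ℕ) : Ideal R :=
  Ideal.span {x | ∃ i j, x = (matOf ρ b (globGenAt v p) - 1) i j}

theorem sub_one_mem_tameIdeal (ρ : GaloisRepAdic R) (b : Module.Basis (Fin 2) R ρ.V) (v : Nat.Primes)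
    (i j : Fin 2) : (matOf ρ b (globGenAt v p) - 1) i j ∈ tameIdeal ρ b v p :=
  Ideal.subset_span ⟨i, j, rfl⟩

/-- a prime different from the residue characteristic is a unit -/
theorem isUnit_natCast_of_ne {p : ℕ} (hp : p.Prime) (hp𝒪 : (p : 𝒪) ∈ maximalIdeal 𝒪) {q : ℕ}
    (hq : q.Prime) (hpq : p ≠ q) : IsUnit (q : 𝒪) := by
  by_contra h
  have hq𝒪 : (q : 𝒪) ∈ maximalIdeal 𝒪 := (mem_maximalIdeal _).mpr h
  have hcop : Nat.Coprime p q := (Nat.coprime_primes hp hq).mpr hpq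
  have h1 : ((Nat.gcd p q : ℤ) : 𝒪) ∈ maximalIdeal 𝒪 := by
    rw [Nat.gcd_eq_gcd_ab, Int.cast_add, Int.cast_mul, Int.cast_mul, Int.cast_natCast,
      Int.cast_natCast]
    exact Ideal.add_mem _ (Ideal.mul_mem_right _ _ hp𝒪) (Ideal.mul_mem_right _ _ hq𝒪)
  rw [hcop, Nat.cast_one, Int.cast_one] at h1
  exact (mem_maximalIdeal _).mp h1 isUnit_one

/-- **N2, the bound on the image of the tame ideal in the cotangent space.** -/
theorem length_cotImage_tameIdeal_le [IsHausdorff (maximalIdeal R) R]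
    (hp𝒪 : (p : 𝒪) ∈ maximalIdeal 𝒪) (ρ : GaloisRepAdic R) (b : Module.Basis (Fin 2) R ρ.V)
    (hdet : ρ.DetIsCyclotomic p) (v : Nat.Primes) (hpv : p ≠ (v : ℕ))
    (hur : ρ.residual.IsUnramifiedAt (v : ℕ))
    (hur₀ : ∀ i j, π ((matOf ρ b (globGenAt v p) - 1) i j) = 0)
    (a : 𝒪) (ha : π (matOf ρ b (globFrobAt v)).trace = a)
    (hc : (((v : ℕ) : 𝒪) - 1) * (a ^ 2 - (((v : ℕ) : 𝒪) + 1) ^ 2) ≠ 0) :
    Module.length 𝒪 (cotImage π (tameIdeal ρ b v p)) ≤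
      Module.length 𝒪
        (𝒪 ⧸ Ideal.span {(((v : ℕ) : 𝒪) - 1) * (a ^ 2 - (((v : ℕ) : 𝒪) + 1) ^ 2)}) := by
  subst ha
  have hone : (1 : Matrix (Fin 2) (Fin 2) R) + (matOf ρ b (globGenAt v p) - 1) =
      matOf ρ b (globGenAt v p) := add_sub_cancel _ _
  refine length_cotImage_le π (matOf ρ b (globGenAt v p) - 1) (matOf ρ b (globFrobAt v)) (v : ℕ)
    hur₀ ?_ ?_ ?_ (isUnit_natCast_of_ne hp.out hp𝒪 v.2 hpv) hc
  · rw [hone]
    exact det_matOf_globGenAt p ρ hdet b v hpv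
  · rw [hone]
    exact matOf_tame_relation p hdet.1 ρ b v hpv hur
  · rw [det_matOf_globFrobAt p ρ hdet b v hpv, map_natCast]

/-- **N2.**  Allowing ramification at `v ≠ p` (where `ρ̄` and `π ∘ ρ` are unramified) increases the length of the
cotangent space by at most `length 𝒪/((v - 1)(a² - (v + 1)²))`, `a = π (tr ρ(Φ_v))`. -/
theorem length_cotangent_le_of_tame [IsHausdorff (maximalIdeal R) R]
    (hp𝒪 : (p : 𝒪) ∈ maximalIdeal 𝒪) (ρ : GaloisRepAdic R) (b : Module.Basis (Fin 2) R ρ.V)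
    (hdet : ρ.DetIsCyclotomic p) (v : Nat.Primes) (hpv : p ≠ (v : ℕ))
    (hur : ρ.residual.IsUnramifiedAt (v : ℕ))
    (hur₀ : ∀ i j, π ((matOf ρ b (globGenAt v p) - 1) i j) = 0)
    (a : 𝒪) (ha : π (matOf ρ b (globFrobAt v)).trace = a)
    (hc : (((v : ℕ) : 𝒪) - 1) * (a ^ 2 - (((v : ℕ) : 𝒪) + 1) ^ 2) ≠ 0)
    {R'' : Type} [CommRing R''] [Algebra 𝒪 R''] (π'' : R'' →ₐ[𝒪] 𝒪) (ψ : R →ₐ[𝒪] R'')
    (hψ : Function.Surjective ψ) (hπ : π''.comp ψ = π)
    (hker : RingHom.ker (ψ : R →+* R'') ≤ tameIdeal ρ b v p) :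
    Module.length 𝒪 (RingHom.ker (π : R →+* 𝒪)).Cotangent ≤
      Module.length 𝒪 (RingHom.ker (π'' : R'' →+* 𝒪)).Cotangent +
        Module.length 𝒪
          (𝒪 ⧸ Ideal.span {(((v : ℕ) : 𝒪) - 1) * (a ^ 2 - (((v : ℕ) : 𝒪) + 1) ^ 2)}) := by
  refine (length_cotangent_le_add π π'' ψ hψ hπ _ hker).trans ?_
  rw [add_comm]
  exact add_le_add_right
    (length_cotImage_tameIdeal_le π p hp𝒪 ρ b hdet v hpv hur hur₀ a ha hc) _

/-! ### the tame ideal cuts out the unramified locus -/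

section Unram

variable {R'' : Type} [CommRing R''] [IsLocalRing R'']

/-- if `ρ ⊗_ψ R''` is unramified at `v`, then `ψ` kills the tame ideal -/
theorem tameIdeal_le_ker_of_isUnramifiedAt (ρ : GaloisRepAdic R) (b : Module.Basis (Fin 2) R ρ.V)
    (v : Nat.Primes) (ψ : R →+* R'') (hψ : IsLocalHom ψ)
    (h : (ρ.baseChangeAlong ψ hψ).IsUnramifiedAt (v : ℕ)) : tameIdeal ρ b v p ≤ RingHom.ker ψ := by
  rw [tameIdeal, Ideal.span_le]
  rintro _ ⟨i, j, rfl⟩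
  have h1 : matOf (ρ.baseChangeAlong ψ hψ) (bcBasis ψ hψ ρ b) (globGenAt v p) = 1 := by
    unfold matOf
    rw [h _ (Fermat.Agent.S56lib.TWSel.primeLocalPlace_liesOverPrime v) _ (globGenAt_mem_inertia v p)]
    exact LinearMap.toMatrix_one _
  rw [matOf_baseChangeAlong] at h1
  have h2 := congrFun (congrFun h1 i) j
  rw [Matrix.map_apply] at h2
  rw [SetLike.mem_coe, RingHom.mem_ker, Matrix.sub_apply, map_sub, h2]
  by_cases hij : i = j
  · subst hij; simp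
  · simp [hij]

/-- if `ψ` kills the tame ideal (and `ρ ⊗_ψ R''` is residually unramified at `v`), then `ρ ⊗_ψ R''` is
unramified at `v` -/
theorem isUnramifiedAt_of_tameIdeal_le_ker [IsHausdorff (maximalIdeal R'') R'']
    (hpR'' : (p : R'') ∈ maximalIdeal R'') (ρ : GaloisRepAdic R) (b : Module.Basis (Fin 2) R ρ.V)
    (v : Nat.Primes) (hpv : p ≠ (v : ℕ)) (ψ : R →+* R'') (hψ : IsLocalHom ψ)
    (hur : (ρ.baseChangeAlong ψ hψ).residual.IsUnramifiedAt (v : ℕ))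
    (h : tameIdeal ρ b v p ≤ RingHom.ker ψ) : (ρ.baseChangeAlong ψ hψ).IsUnramifiedAt (v : ℕ) := by
  refine unram_of_globGen_eq_one p hpR'' _ (bcBasis ψ hψ ρ b) v hpv hur ?_
  rw [matOf_baseChangeAlong]
  ext i j
  have h1 := h (sub_one_mem_tameIdeal p ρ b v i j)
  rw [RingHom.mem_ker, Matrix.sub_apply, map_sub, sub_eq_zero] at h1
  rw [Matrix.map_apply, h1]
  by_cases hij : i = j
  · subst hij; simp
  · simp [hij]

end Unram

/-! ### the form for `GaloisRepAdic` -/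

theorem trace_matOf (ρ : GaloisRepAdic R) (b : Module.Basis (Fin 2) R ρ.V) (σ : Qb ≃ₐ[ℚ] Qb) :
    (matOf ρ b σ).trace = ρ.trace σ := by
  unfold matOf GaloisRepAdic.trace
  exact (LinearMap.trace_eq_matrix_trace R b _).symm

/-- **N2, form for the consumer.**  `ρ₀ = π ∘ ρ` unramified at `v`, `ρ̄` unramified at `v`, `a = π (tr ρ(Φ_v))`,
`ψ : R → R''` a surjection of augmented `𝒪`-algebras whose kernel lies in the tame ideal. -/
theorem length_cotangent_le_of_isUnramifiedAt [IsHausdorff (maximalIdeal R) R]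
    (hp𝒪 : (p : 𝒪) ∈ maximalIdeal 𝒪) (ρ : GaloisRepAdic R) (b : Module.Basis (Fin 2) R ρ.V)
    (hdet : ρ.DetIsCyclotomic p) (v : Nat.Primes) (hpv : p ≠ (v : ℕ))
    (hur : ρ.residual.IsUnramifiedAt (v : ℕ)) (hπloc : IsLocalHom (π : R →+* 𝒪))
    (hur₀ : (ρ.baseChangeAlong (π : R →+* 𝒪) hπloc).IsUnramifiedAt (v : ℕ))
    (a : 𝒪) (ha : π (ρ.trace (globFrobAt v)) = a)
    (hc : (((v : ℕ) : 𝒪) - 1) * (a ^ 2 - (((v : ℕ) : 𝒪) + 1) ^ 2) ≠ 0)
    {R'' : Type} [CommRing R''] [Algebra 𝒪 R''] (π'' : R'' →ₐ[𝒪] 𝒪) (ψ : R →ₐ[𝒪] R'')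
    (hψ : Function.Surjective ψ) (hπ : π''.comp ψ = π)
    (hker : RingHom.ker (ψ : R →+* R'') ≤ tameIdeal ρ b v p) :
    Module.length 𝒪 (RingHom.ker (π : R →+* 𝒪)).Cotangent ≤
      Module.length 𝒪 (RingHom.ker (π'' : R'' →+* 𝒪)).Cotangent +
        Module.length 𝒪
          (𝒪 ⧸ Ideal.span {(((v : ℕ) : 𝒪) - 1) * (a ^ 2 - (((v : ℕ) : 𝒪) + 1) ^ 2)}) := by
  refine length_cotangent_le_of_tame π p hp𝒪 ρ b hdet v hpv hur (fun i j => ?_) a
    (by rw [trace_matOf]; exact ha) hc π'' ψ hψ hπ hker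
  have h := tameIdeal_le_ker_of_isUnramifiedAt p ρ b v (π : R →+* 𝒪) hπloc hur₀
    (sub_one_mem_tameIdeal p ρ b v i j)
  exact (RingHom.mem_ker).mp h

end Fermat.Agent.S59lib.N2
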